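/-
P-S14 block T (helper49): T-X1 `PlaceOverPrimeStatement` and T-X2 `UnitFractionStatement`.
-/
import Fermat.Agent.H53.S14T.Interfaces
import Fermat.Agent.H53.FrobeniusExists

set_option autoImplicit false

open scoped NumberField nonZeroDivisors

namespace Fermat.Agent.H49

open Fermat.Agent.H53

section Basics

variable {K : Type} [Field K] [NumberField K] (ι : K →ₐ[ℚ] AlgebraicClosure ℚ)

/-- Algebraic integers of `K` land in every valuation subring of `ℚ̄`. -/
theorem s14_int_mem (A : ValuationSubring (AlgebraicClosure ℚ)) (x : 𝓞 K) :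
    ι (x : K) ∈ A := by
  have hx : IsIntegral ℤ (ι (x : K)) := by
    have h1 : IsIntegral ℤ (x : K) := NumberField.RingOfIntegers.isIntegral_coe x
    exact h1.map (ι.toIntAlgHom)
  exact intRing_le A hx

theorem s14_val_int_le_one (A : ValuationSubring (AlgebraicClosure ℚ)) (x : 𝓞 K) :
    A.valuation (ι (x : K)) ≤ 1 :=
  (A.valuation_le_one_iff _).2 (s14_int_mem ι A x)

/-- A natural number in a prime ideal has a prime factor in it. -/
theorem exists_prime_natCast_mem {R : Type*} [CommRing R] (P : Ideal R) [P.IsPrime] (n : ℕ)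
    (hn : n ≠ 0) (hnP : (n : R) ∈ P) : ∃ ℓ : ℕ, ℓ.Prime ∧ (ℓ : R) ∈ P := by
  induction n using Nat.recOnMul with
  | zero => exact absurd rfl hn
  | one =>
    exfalso
    rw [Nat.cast_one] at hnP
    exact (Ideal.ne_top_iff_one P).1 (Ideal.IsPrime.ne_top inferInstance) hnP
  | prime ℓ hℓ => exact ⟨ℓ, hℓ, hnP⟩
  | mul a b iha ihb =>
    rw [Nat.cast_mul] at hnP
    have ha0 : a ≠ 0 := fun h => hn (by rw [h, zero_mul])
    have hb0 : b ≠ 0 := fun h => hn (by rw [h, mul_zero])
    rcases Ideal.IsPrime.mem_or_mem inferInstance hnP with h | h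
    · exact iha ha0 h
    · exact ihb hb0 h

end Basics

/-- **T-X1**: every nonzero prime of `𝓞 K` is the centre of a place of `ℚ̄`. -/
theorem placeOverPrime : Fermat.Agent.H53.PlaceOverPrimeStatement := by
  intro K _ _ ι P hP hP0
  have := hP
  let f : 𝓞 K →+* AlgebraicClosure ℚ :=
    (ι : K →+* AlgebraicClosure ℚ).comp (algebraMap (𝓞 K) K)
  have hfx : ∀ x : 𝓞 K, f x = ι (x : K) := fun _ => rfl
  have hf : Function.Injective f :=
    (ι : K →+* AlgebraicClosure ℚ).injective.comp NumberField.RingOfIntegers.coe_injective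
  let e : 𝓞 K ≃+* f.range := RingEquiv.ofBijective f.rangeRestrict
    ⟨fun a b h => hf (congrArg Subtype.val h), f.rangeRestrict_surjective⟩
  have he : ∀ x : 𝓞 K, ((e x : f.range) : AlgebraicClosure ℚ) = ι (x : K) := fun _ => rfl
  let I : Ideal f.range := Ideal.comap (e.symm : f.range →+* 𝓞 K) P
  have hIprime : I.IsPrime := Ideal.comap_isPrime _ P
  obtain ⟨A, -, hIA⟩ := Ideal.image_subset_nonunits_valuationSubring I hIprime.ne_top
  have hPA : ∀ x : 𝓞 K, x ∈ P → ι (x : K) ∈ A.nonunits := by
    intro x hx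
    apply hIA
    refine ⟨e x, ?_, he x⟩
    show (e.symm : f.range →+* 𝓞 K) (e x) ∈ P
    simpa using hx
  have hmax : P.IsMaximal := Ideal.IsPrime.isMaximal hP hP0
  have hcenter : ∀ x : 𝓞 K, ι (x : K) ∈ A.nonunits ↔ x ∈ P := by
    intro x
    refine ⟨fun hx => ?_, hPA x⟩
    by_contra hxP
    obtain ⟨y, i, hi, hyi⟩ := hmax.exists_inv hxP
    have h1 : ι ((y : K)) * ι ((x : K)) + ι ((i : K)) = 1 := by
      have := congrArg (fun t : 𝓞 K => ι (t : K)) hyi
      simpa using this
    have h2 : (1 : AlgebraicClosure ℚ) ∈ A.nonunits := by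
      rw [← h1]
      refine add_mem ?_ (hPA i hi)
      rw [mul_comm]
      exact nonunits_mul_mem A hx (s14_int_mem ι A y)
    rw [ValuationSubring.mem_nonunits_iff, map_one] at h2
    exact lt_irrefl _ h2
  have hn0 : Ideal.absNorm P ≠ 0 := by
    rw [Ne, Ideal.absNorm_eq_zero_iff]
    exact hP0
  obtain ⟨ℓ, hℓ, hℓP⟩ := exists_prime_natCast_mem P (Ideal.absNorm P) hn0 (Ideal.absNorm_mem P)
  refine ⟨A, ℓ, hℓ, ?_, fun x => s14_int_mem ι A x, hcenter⟩
  have := hPA _ hℓP
  simpa [ValuationSubring.LiesOverPrime] using this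

/-- **T-X2**: an element of `K` which is a unit at a place with centre `P` is a quotient of two
integers outside `P`. -/
theorem unitFraction : Fermat.Agent.H53.UnitFractionStatement := by
  intro K _ _ ι P A ℓ hℓ hA hcenter k hk
  have hk0 : k ≠ 0 := by
    intro h0
    rw [h0, map_zero, map_zero] at hk
    exact zero_ne_one hk
  -- `P` is a nonzero prime
  have hPprime : P.IsPrime := by
    refine ⟨?_, ?_⟩
    · intro htop
      have h1 : (1 : 𝓞 K) ∈ P := htop ▸ Submodule.mem_top
      have := (hcenter 1).2 h1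
      rw [ValuationSubring.mem_nonunits_iff] at this
      simp at this
    · intro x y hxy
      have h1 := (hcenter (x * y)).2 hxy
      rw [ValuationSubring.mem_nonunits_iff] at h1
      have h2 : A.valuation (ι (x : K)) * A.valuation (ι (y : K)) < 1 := by
        simpa using h1
      by_contra hcon
      rw [not_or] at hcon
      have hx1 : A.valuation (ι (x : K)) = 1 := by
        refine le_antisymm (s14_val_int_le_one ι A x) ?_
        by_contra hlt
        rw [not_le] at hlt
        exact hcon.1 ((hcenter x).1 ((ValuationSubring.mem_nonunits_iff _).2 hlt))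
      have hy1 : A.valuation (ι (y : K)) = 1 := by
        refine le_antisymm (s14_val_int_le_one ι A y) ?_
        by_contra hlt
        rw [not_le] at hlt
        exact hcon.2 ((hcenter y).1 ((ValuationSubring.mem_nonunits_iff _).2 hlt))
      rw [hx1, hy1, one_mul] at h2
      exact lt_irrefl _ h2
  have hP0 : P ≠ ⊥ := by
    intro hbot
    have hℓP : ((ℓ : ℕ) : 𝓞 K) ∈ P := by
      apply (hcenter _).1
      have : (ℓ : AlgebraicClosure ℚ) ∈ A.nonunits := hA
      simpa using this
    rw [hbot, Ideal.mem_bot] at hℓP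
    have : (ℓ : 𝓞 K) ≠ 0 := Nat.cast_ne_zero.2 hℓ.ne_zero
    exact this hℓP
  have hunit : ∀ d : 𝓞 K, d ∉ P → A.valuation (ι (d : K)) = 1 := by
    intro d hd
    refine le_antisymm (s14_val_int_le_one ι A d) ?_
    by_contra hlt
    rw [not_le] at hlt
    exact hd ((hcenter d).1 ((ValuationSubring.mem_nonunits_iff _).2 hlt))
  have hnonunit : ∀ n : 𝓞 K, A.valuation (ι (n : K)) = 1 → n ∉ P := by
    intro n hn hnP
    have := (hcenter n).2 hnP
    rw [ValuationSubring.mem_nonunits_iff, hn] at this
    exact lt_irrefl _ this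
  let v : IsDedekindDomain.HeightOneSpectrum (𝓞 K) := ⟨P, hPprime, hP0⟩
  obtain ⟨n, d, h | h⟩ := v.exists_primeCompl_mul_eq_or_mul_eq (K := K) k
  · refine ⟨n, d, ?_, d.2, h⟩
    apply hnonunit
    have h1 := congrArg (fun t : K => A.valuation (ι t)) h
    simp only [map_mul] at h1
    rw [hk, one_mul] at h1
    rw [← h1]
    exact hunit d d.2
  · refine ⟨d, n, d.2, ?_, h⟩
    apply hnonunit
    have h1 := congrArg (fun t : K => A.valuation (ι t)) h
    simp only [map_mul] at h1
    rw [hk, one_mul] at h1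
    rw [h1]
    exact hunit d d.2

end Fermat.Agent.H49
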