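/-
P-S14 block T (helper49): T-C `CycloLocalStatement` (the place over `p` of `ℚ(ζ_p)`).
-/
import Fermat.Agent.H49.S14.PlaceOverPrime

set_option autoImplicit false

open scoped NumberField nonZeroDivisors

namespace Fermat.Agent.H49

open Fermat.Agent.H53

section Units

variable {K : Type} [Field K] [NumberField K] (ι : K →ₐ[ℚ] AlgebraicClosure ℚ)

/-- Units of `𝓞 K` have valuation one at every place of `ℚ̄`. -/
theorem s14_val_unit (A : ValuationSubring (AlgebraicClosure ℚ)) {u : 𝓞 K} (hu : IsUnit u) :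
    A.valuation (ι (u : K)) = 1 := by
  obtain ⟨w, hw⟩ := isUnit_iff_exists_inv.1 hu
  have h1 : A.valuation (ι (u : K)) * A.valuation (ι (w : K)) = 1 := by
    have := congrArg (fun t : 𝓞 K => A.valuation (ι (t : K))) hw
    simpa using this
  have h2 := s14_val_int_le_one ι A u
  have h3 := s14_val_int_le_one ι A w
  refine le_antisymm h2 ?_
  by_contra hlt
  rw [not_le] at hlt
  have h4 : A.valuation (ι (u : K)) * A.valuation (ι (w : K)) < 1 := by
    calc A.valuation (ι (u : K)) * A.valuation (ι (w : K))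
        ≤ A.valuation (ι (u : K)) * 1 := by gcongr
      _ = A.valuation (ι (u : K)) := mul_one _
      _ < 1 := hlt
  rw [h1] at h4
  exact lt_irrefl _ h4

end Units

/-- **T-C**: the place over `p` of the cyclotomic field. -/
theorem cycloLocal : Fermat.Agent.H53.CycloLocalStatement := by
  intro p _ hp3 K _ _ _ ι ζ hζ A hA
  set π : 𝓞 K := hζ.toInteger - 1 with hπ
  have hπK : ((π : 𝓞 K) : K) = ζ - 1 := by
    rw [hπ]
    rfl
  set w := A.valuation (ι (ζ - 1)) with hw
  have hwπ : A.valuation (ι ((π : 𝓞 K) : K)) = w := by rw [hπK]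
  have hw1 : w ≤ 1 := by
    rw [← hwπ]
    exact s14_val_int_le_one ι A π
  have hπprime : Prime π := hζ.zeta_sub_one_prime'
  have hπ0 : π ≠ 0 := hπprime.ne_zero
  have hw0 : w ≠ 0 := by
    rw [← hwπ, Ne, map_eq_zero, map_eq_zero]
    exact_mod_cast hπ0
  -- (2)
  have hassoc := IsCyclotomicExtension.Rat.associated_zeta_sub_one_pow_prime p hζ
  have h2 : A.valuation ((p : ℕ) : AlgebraicClosure ℚ) = w ^ (p - 1) := by
    obtain ⟨u, hu⟩ := hassoc
    have h := congrArg (fun t : 𝓞 K => A.valuation (ι (t : K))) hu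
    simp only [map_mul, map_pow, map_natCast] at h
    rw [s14_val_unit ι A u.isUnit, mul_one] at h
    rw [← h, ← hπ, hwπ]
  -- (1)
  have hpval : A.valuation ((p : ℕ) : AlgebraicClosure ℚ) < 1 :=
    (ValuationSubring.mem_nonunits_iff _).1 hA
  have h1 : w < 1 := by
    rcases hw1.lt_or_eq with h | h
    · exact h
    · rw [h2, h, one_pow] at hpval
      exact absurd hpval (lt_irrefl _)
  -- centre
  have hcenter : ∀ x : 𝓞 K, A.valuation (ι (x : K)) < 1 ↔ π ∣ x := by
    intro x
    constructor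
    · intro hx
      by_contra hnd
      obtain ⟨a, b, hab⟩ := IsCyclotomicExtension.Rat.isCoprime_of_not_zeta_sub_one_dvd p hζ hnd
      have h := congrArg (fun t : 𝓞 K => ι (t : K)) hab
      simp only [map_add, map_mul, map_natCast, map_one] at h
      have hmem : (1 : AlgebraicClosure ℚ) ∈ A.nonunits := by
        rw [← h]
        refine add_mem ?_ ?_
        · rw [mul_comm]
          exact nonunits_mul_mem A hA (s14_int_mem ι A a)
        · rw [mul_comm]
          exact nonunits_mul_mem A ((ValuationSubring.mem_nonunits_iff _).2 hx) (s14_int_mem ι A b)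
      rw [ValuationSubring.mem_nonunits_iff, map_one] at hmem
      exact lt_irrefl _ hmem
    · rintro ⟨y, rfl⟩
      have : A.valuation (ι ((π * y : 𝓞 K) : K)) = w * A.valuation (ι (y : K)) := by
        simp only [map_mul]
        rw [hwπ]
      rw [this]
      calc w * A.valuation (ι (y : K)) ≤ w * 1 := by gcongr; exact s14_val_int_le_one ι A y
        _ = w := mul_one _
        _ < 1 := h1
  have hunit : ∀ x : 𝓞 K, ¬ π ∣ x → A.valuation (ι (x : K)) = 1 := by
    intro x hx
    refine le_antisymm (s14_val_int_le_one ι A x) ?_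
    by_contra hlt
    rw [not_le] at hlt
    exact hx ((hcenter x).1 hlt)
  -- factorisation of nonzero integers
  have hfact : ∀ a : 𝓞 K, a ≠ 0 → ∃ m : ℕ, π ^ m ∣ a ∧ A.valuation (ι (a : K)) = w ^ m := by
    intro a ha
    obtain ⟨m, a', hnd, rfl⟩ := WfDvdMonoid.max_power_factor ha hπprime.irreducible
    refine ⟨m, Dvd.intro _ rfl, ?_⟩
    simp only [map_mul, map_pow]
    rw [hwπ, hunit a' hnd, mul_one]
  have h5 : ∀ (x : 𝓞 K) (n : ℕ), A.valuation (ι (x : K)) ≤ w ^ n → π ^ n ∣ x := by
    intro x n hx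
    by_cases hx0 : x = 0
    · rw [hx0]
      exact dvd_zero _
    obtain ⟨m, hdvd, hm⟩ := hfact x hx0
    rw [hm] at hx
    have hnm : n ≤ m := by
      by_contra hlt
      rw [not_le] at hlt
      have hw0' : 0 < w := zero_lt_iff.2 hw0
      have := pow_lt_pow_right_of_lt_one₀ hw0' h1 hlt
      exact absurd hx (not_le.2 this)
    exact (pow_dvd_pow π hnm).trans hdvd
  refine ⟨h1, h2, ?_, ?_, h5, ?_⟩
  · -- (3)
    intro k hk
    obtain ⟨a, b, hb, rfl⟩ := IsFractionRing.div_surjective (A := 𝓞 K) k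
    have hb0 : b ≠ 0 := nonZeroDivisors.ne_zero hb
    have ha0 : a ≠ 0 := by
      rintro rfl
      simp at hk
    obtain ⟨m, -, hm⟩ := hfact a ha0
    obtain ⟨m', -, hm'⟩ := hfact b hb0
    refine ⟨(m : ℤ) - (m' : ℤ), ?_⟩
    have ha' : algebraMap (𝓞 K) K a = (a : K) := rfl
    have hb' : algebraMap (𝓞 K) K b = (b : K) := rfl
    rw [ha', hb', map_div₀, map_div₀, hm, hm', zpow_sub₀ hw0, zpow_natCast, zpow_natCast]
  · -- (4)
    intro x
    obtain ⟨f, hf⟩ := (hζ.integralPowerBasis).exists_eq_aeval' x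
    rw [IsPrimitiveRoot.integralPowerBasis_gen] at hf
    refine ⟨f.eval 1, ?_⟩
    have hdvd : π ∣ x - ((f.eval 1 : ℤ) : 𝓞 K) := by
      have h := Polynomial.sub_dvd_eval_sub hζ.toInteger 1 (f.map (algebraMap ℤ (𝓞 K)))
      rw [Polynomial.eval_map_algebraMap, ← hf] at h
      have h1' : Polynomial.eval 1 (f.map (algebraMap ℤ (𝓞 K))) = ((f.eval 1 : ℤ) : 𝓞 K) := by
        rw [Polynomial.eval_map, Polynomial.eval₂_at_one]
        simp
      rwa [h1'] at h
    have hval := (hcenter _).2 hdvd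
    rw [ValuationSubring.mem_nonunits_iff]
    have hcoe : (((x - ((f.eval 1 : ℤ) : 𝓞 K) : 𝓞 K)) : K) = (x : K) - ((f.eval 1 : ℤ) : K) := by
      simp
    rwa [hcoe] at hval
  · -- (6)
    intro x hx
    rw [h2] at hx
    exact hassoc.symm.dvd.trans (h5 x (p - 1) hx)

end Fermat.Agent.H49
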